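import Fermat.Agent.S18.Defs

/-!
# S18 / T (Case B input): the Gauss ring of `Fb` and its reduction map to `Ft`

Abstract setting of `Defs.lean`: `L` a field, `A` a valuation subring with residue field `k`,
`Fb ⊆ L((q))`, `Ft ⊆ k((q))`, `Adm A Fb Ft` the admissible series.

* `GaussRel A Fb Ft f φ` : `f ∈ Fb` "reduces to" `φ ∈ Ft`: `f = gen y₁ / gen y₂`, `φ = red y₁ / red y₂`
  with `y₁, y₂` admissible, `red y₂ ≠ 0`.  Functional in `f`, compatible with `+`, `*`.
* `gaussRing A Fb Ft : Subring Fb` and the ring hom `gaussRed A Fb Ft : gaussRing A Fb Ft →+* Ft`.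
* `gauss_unit` : elements with nonzero reduction are units of the Gauss ring.
* `gauss_val`  : under the Gauss normal form (`hGauss` of `core`), the Gauss ring is a valuation ring.
-/

set_option autoImplicit false
set_option synthInstance.maxHeartbeats 400000

noncomputable section

namespace Fermat.Agent.S18.T4649

open ModularCurve

section Gauss

variable {L : Type*} [Field L] (A : ValuationSubring L)

/-- instance shortcut (same term as found by instance search, which is slow here) -/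
local instance instAlgResLaurent :
    Algebra (IsLocalRing.ResidueField A) (LaurentSeries (IsLocalRing.ResidueField A)) :=
  HahnSeries.powerSeriesAlgebra ℤ (IsLocalRing.ResidueField A)

variable (Fb : IntermediateField L (LaurentSeries L))
variable (Ft : IntermediateField (IsLocalRing.ResidueField A)
  (LaurentSeries (IsLocalRing.ResidueField A)))

/-- instance shortcut -/
local instance instAlgResFt : Algebra (IsLocalRing.ResidueField A) Ft :=
  SubalgebraClass.toAlgebra Ft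

theorem coeffMap_subtype_injective : Function.Injective (coeffMap A.subtype) := by
  intro x y h
  ext k
  have := congrArg (fun z => z.coeff k) h
  simp only [coeffMap_coeff] at this
  exact this

/-- The generic fibre as a ring hom. -/
def genHom : Adm A Fb Ft →+* Fb where
  toFun := genOf A Fb Ft
  map_one' := Subtype.ext (map_one (coeffMap A.subtype))
  map_mul' x y := Subtype.ext (map_mul (coeffMap A.subtype) _ _)
  map_zero' := Subtype.ext (map_zero (coeffMap A.subtype))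
  map_add' x y := Subtype.ext (map_add (coeffMap A.subtype) _ _)

/-- The reduction as a ring hom. -/
def redHom : Adm A Fb Ft →+* Ft where
  toFun := redOf A Fb Ft
  map_one' := Subtype.ext (map_one (coeffMap (IsLocalRing.residue A)))
  map_mul' x y := Subtype.ext (map_mul (coeffMap (IsLocalRing.residue A)) _ _)
  map_zero' := Subtype.ext (map_zero (coeffMap (IsLocalRing.residue A)))
  map_add' x y := Subtype.ext (map_add (coeffMap (IsLocalRing.residue A)) _ _)

theorem genHom_apply (y : Adm A Fb Ft) : genHom A Fb Ft y = genOf A Fb Ft y := rfl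

theorem redHom_apply (y : Adm A Fb Ft) : redHom A Fb Ft y = redOf A Fb Ft y := rfl

theorem coe_genHom (y : Adm A Fb Ft) :
    ((genHom A Fb Ft y : Fb) : LaurentSeries L) = coeffMap A.subtype (y : LaurentSeries A) := rfl

theorem coe_redHom (y : Adm A Fb Ft) :
    ((redHom A Fb Ft y : Ft) : LaurentSeries (IsLocalRing.ResidueField A)) =
      coeffMap (IsLocalRing.residue A) (y : LaurentSeries A) := rfl

theorem genHom_injective : Function.Injective (genHom A Fb Ft) := by
  intro x y h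
  apply Subtype.ext
  apply coeffMap_subtype_injective A
  exact congrArg Subtype.val h

/-- Constants of `A` are admissible. -/
theorem C_mem_Adm (a : A) : HahnSeries.C a ∈ Adm A Fb Ft := by
  refine ⟨?_, ?_⟩
  · have : coeffMap A.subtype (HahnSeries.C a) = algebraMap L (LaurentSeries L) (a : L) := by
      rw [algebraMap_laurentSeries_eq_single, HahnSeries.C_apply, coeffMap_single]
      rfl
    rw [this]
    exact Fb.algebraMap_mem _
  · have : coeffMap (IsLocalRing.residue A) (HahnSeries.C a) =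
        algebraMap (IsLocalRing.ResidueField A) (LaurentSeries (IsLocalRing.ResidueField A))
          (IsLocalRing.residue A a) := by
      rw [algebraMap_laurentSeries_eq_single, HahnSeries.C_apply, coeffMap_single]
    rw [this]
    exact Ft.algebraMap_mem _

/-- Constants of `A` as admissible series. -/
def constAdm (a : A) : Adm A Fb Ft := ⟨HahnSeries.C a, C_mem_Adm A Fb Ft a⟩

theorem genHom_constAdm (a : A) : genHom A Fb Ft (constAdm A Fb Ft a) = algebraMap L Fb (a : L) := by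
  apply Subtype.ext
  show coeffMap A.subtype (HahnSeries.C a) = algebraMap L (LaurentSeries L) (a : L)
  rw [algebraMap_laurentSeries_eq_single, HahnSeries.C_apply, coeffMap_single]
  rfl

theorem redHom_constAdm (a : A) :
    redHom A Fb Ft (constAdm A Fb Ft a) =
      algebraMap (IsLocalRing.ResidueField A) Ft (IsLocalRing.residue A a) := by
  apply Subtype.ext
  show coeffMap (IsLocalRing.residue A) (HahnSeries.C a) =
    algebraMap (IsLocalRing.ResidueField A) (LaurentSeries (IsLocalRing.ResidueField A))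
      (IsLocalRing.residue A a)
  rw [algebraMap_laurentSeries_eq_single, HahnSeries.C_apply, coeffMap_single]

/-- `f ∈ Fb` reduces to `φ ∈ Ft`. -/
def GaussRel (f : Fb) (φ : Ft) : Prop :=
  ∃ y₁ y₂ : Adm A Fb Ft, redHom A Fb Ft y₂ ≠ 0 ∧ f * genHom A Fb Ft y₂ = genHom A Fb Ft y₁ ∧
    φ * redHom A Fb Ft y₂ = redHom A Fb Ft y₁

variable {A Fb Ft}

theorem GaussRel.unique {f : Fb} {φ ψ : Ft} (h : GaussRel A Fb Ft f φ) (h' : GaussRel A Fb Ft f ψ) :
    φ = ψ := by
  obtain ⟨y₁, y₂, hy₂, hf, hφ⟩ := h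
  obtain ⟨z₁, z₂, hz₂, hf', hψ⟩ := h'
  have hgen : genHom A Fb Ft (y₁ * z₂) = genHom A Fb Ft (z₁ * y₂) := by
    rw [map_mul, map_mul, ← hf, ← hf']
    ring
  have hyz : y₁ * z₂ = z₁ * y₂ := genHom_injective A Fb Ft hgen
  have hred : redHom A Fb Ft y₁ * redHom A Fb Ft z₂ = redHom A Fb Ft z₁ * redHom A Fb Ft y₂ := by
    rw [← map_mul, ← map_mul, hyz]
  rw [← hφ, ← hψ] at hred
  have : (φ - ψ) * (redHom A Fb Ft y₂ * redHom A Fb Ft z₂) = 0 := by linear_combination hred
  rcases mul_eq_zero.mp this with h0 | h0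
  · exact sub_eq_zero.mp h0
  · exact absurd h0 (mul_ne_zero hy₂ hz₂)

theorem gaussRel_gen (y : Adm A Fb Ft) : GaussRel A Fb Ft (genHom A Fb Ft y) (redHom A Fb Ft y) :=
  ⟨y, 1, by rw [map_one]; exact one_ne_zero, by rw [map_one, mul_one], by rw [map_one, mul_one]⟩

theorem GaussRel.zero : GaussRel A Fb Ft 0 0 := by
  have := gaussRel_gen (A := A) (Fb := Fb) (Ft := Ft) 0
  rwa [map_zero, map_zero] at this

theorem GaussRel.one : GaussRel A Fb Ft 1 1 := by
  have := gaussRel_gen (A := A) (Fb := Fb) (Ft := Ft) 1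
  rwa [map_one, map_one] at this

theorem GaussRel.add {f g : Fb} {φ ψ : Ft} (h : GaussRel A Fb Ft f φ) (h' : GaussRel A Fb Ft g ψ) :
    GaussRel A Fb Ft (f + g) (φ + ψ) := by
  obtain ⟨y₁, y₂, hy₂, hf, hφ⟩ := h
  obtain ⟨z₁, z₂, hz₂, hg, hψ⟩ := h'
  refine ⟨y₁ * z₂ + z₁ * y₂, y₂ * z₂, ?_, ?_, ?_⟩
  · rw [map_mul]; exact mul_ne_zero hy₂ hz₂
  · simp only [map_add, map_mul]
    rw [← hf, ← hg]; ring
  · simp only [map_add, map_mul]
    rw [← hφ, ← hψ]; ring

theorem GaussRel.mul {f g : Fb} {φ ψ : Ft} (h : GaussRel A Fb Ft f φ) (h' : GaussRel A Fb Ft g ψ) :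
    GaussRel A Fb Ft (f * g) (φ * ψ) := by
  obtain ⟨y₁, y₂, hy₂, hf, hφ⟩ := h
  obtain ⟨z₁, z₂, hz₂, hg, hψ⟩ := h'
  refine ⟨y₁ * z₁, y₂ * z₂, ?_, ?_, ?_⟩
  · rw [map_mul]; exact mul_ne_zero hy₂ hz₂
  · simp only [map_mul]
    rw [← hf, ← hg]; ring
  · simp only [map_mul]
    rw [← hφ, ← hψ]; ring

theorem GaussRel.neg {f : Fb} {φ : Ft} (h : GaussRel A Fb Ft f φ) : GaussRel A Fb Ft (-f) (-φ) := by
  obtain ⟨y₁, y₂, hy₂, hf, hφ⟩ := h
  refine ⟨-y₁, y₂, hy₂, ?_, ?_⟩
  · rw [map_neg, ← hf]; ring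
  · rw [map_neg, ← hφ]; ring

theorem GaussRel.inv {f : Fb} {φ : Ft} (h : GaussRel A Fb Ft f φ) (hφ0 : φ ≠ 0) :
    GaussRel A Fb Ft f⁻¹ φ⁻¹ := by
  obtain ⟨y₁, y₂, hy₂, hf, hφ⟩ := h
  have hy₁ : redHom A Fb Ft y₁ ≠ 0 := by rw [← hφ]; exact mul_ne_zero hφ0 hy₂
  have hg₂ : genHom A Fb Ft y₂ ≠ 0 := by
    intro h0
    have : y₂ = 0 := genHom_injective A Fb Ft (by rw [h0, map_zero])
    exact hy₂ (by rw [this, map_zero])
  have hg₁ : genHom A Fb Ft y₁ ≠ 0 := by
    intro h0
    have : y₁ = 0 := genHom_injective A Fb Ft (by rw [h0, map_zero])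
    exact hy₁ (by rw [this, map_zero])
  have hf0 : f ≠ 0 := by
    rintro rfl
    rw [zero_mul] at hf
    exact hg₁ hf.symm
  refine ⟨y₂, y₁, hy₁, ?_, ?_⟩
  · rw [← hf]; field_simp
  · rw [← hφ]; field_simp

variable (A Fb Ft)

/-- The Gauss ring: elements of `Fb` having a reduction. -/
def gaussRing : Subring Fb where
  carrier := {f | ∃ φ, GaussRel A Fb Ft f φ}
  mul_mem' := fun ⟨φ, h⟩ ⟨ψ, h'⟩ => ⟨φ * ψ, h.mul h'⟩
  one_mem' := ⟨1, GaussRel.one⟩
  add_mem' := fun ⟨φ, h⟩ ⟨ψ, h'⟩ => ⟨φ + ψ, h.add h'⟩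
  zero_mem' := ⟨0, GaussRel.zero⟩
  neg_mem' := fun ⟨φ, h⟩ => ⟨-φ, h.neg⟩

variable {A Fb Ft}

theorem mem_gaussRing {f : Fb} : f ∈ gaussRing A Fb Ft ↔ ∃ φ, GaussRel A Fb Ft f φ := Iff.rfl

variable (A Fb Ft)

/-- The reduction map of the Gauss ring. -/
def gaussRed : gaussRing A Fb Ft →+* Ft where
  toFun f := Classical.choose f.2
  map_one' := (Classical.choose_spec (gaussRing A Fb Ft).one_mem).unique GaussRel.one
  map_mul' f g := (Classical.choose_spec (f * g).2).unique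
    ((Classical.choose_spec f.2).mul (Classical.choose_spec g.2))
  map_zero' := (Classical.choose_spec (gaussRing A Fb Ft).zero_mem).unique GaussRel.zero
  map_add' f g := (Classical.choose_spec (f + g).2).unique
    ((Classical.choose_spec f.2).add (Classical.choose_spec g.2))

variable {A Fb Ft}

theorem gaussRed_spec (f : gaussRing A Fb Ft) : GaussRel A Fb Ft (f : Fb) (gaussRed A Fb Ft f) :=
  Classical.choose_spec f.2

theorem gaussRed_eq {f : Fb} {φ : Ft} (h : GaussRel A Fb Ft f φ) :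
    gaussRed A Fb Ft ⟨f, φ, h⟩ = φ :=
  (gaussRed_spec (⟨f, φ, h⟩ : gaussRing A Fb Ft)).unique h

theorem genHom_mem_gaussRing (y : Adm A Fb Ft) : genHom A Fb Ft y ∈ gaussRing A Fb Ft :=
  ⟨_, gaussRel_gen y⟩

theorem gaussRed_genHom (y : Adm A Fb Ft) :
    gaussRed A Fb Ft ⟨genHom A Fb Ft y, genHom_mem_gaussRing y⟩ = redHom A Fb Ft y :=
  gaussRed_eq (gaussRel_gen y)

/-- Elements of the Gauss ring with nonzero reduction are units. -/
theorem gauss_unit (x : gaussRing A Fb Ft) (hx : gaussRed A Fb Ft x ≠ 0) :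
    (x : Fb)⁻¹ ∈ gaussRing A Fb Ft :=
  ⟨_, (gaussRed_spec x).inv hx⟩

/-- Under the Gauss normal form, the Gauss ring is a valuation ring of `Fb`. -/
theorem gauss_val
    (hGauss : ∀ f : Fb, f ≠ 0 → ∃ (c : L) (y₁ y₂ : Adm A Fb Ft), c ≠ 0 ∧
      redOf A Fb Ft y₁ ≠ 0 ∧ redOf A Fb Ft y₂ ≠ 0 ∧
      f * genOf A Fb Ft y₂ = algebraMap L Fb c * genOf A Fb Ft y₁) (f : Fb) :
    f ∈ gaussRing A Fb Ft ∨ f⁻¹ ∈ gaussRing A Fb Ft := by
  by_cases hf : f = 0
  · left; rw [hf]; exact (gaussRing A Fb Ft).zero_mem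
  obtain ⟨c, y₁, y₂, hc, hy₁, hy₂, hfy⟩ := hGauss f hf
  have hg₂ : genHom A Fb Ft y₂ ≠ 0 := by
    intro h0
    have : y₂ = 0 := genHom_injective A Fb Ft (by rw [h0, map_zero])
    exact hy₂ (by rw [this]; exact map_zero (redHom A Fb Ft))
  rcases A.mem_or_inv_mem c with hcA | hcA
  · left
    have hgen : f * genHom A Fb Ft y₂ = genHom A Fb Ft (constAdm A Fb Ft ⟨c, hcA⟩ * y₁) := by
      rw [map_mul, genHom_constAdm]
      exact hfy
    refine ⟨redHom A Fb Ft (constAdm A Fb Ft ⟨c, hcA⟩ * y₁) / redHom A Fb Ft y₂,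
      constAdm A Fb Ft ⟨c, hcA⟩ * y₁, y₂, hy₂, hgen, ?_⟩
    exact div_mul_cancel₀ _ hy₂
  · right
    have hgen : f⁻¹ * genHom A Fb Ft y₁ = genHom A Fb Ft (constAdm A Fb Ft ⟨c⁻¹, hcA⟩ * y₂) := by
      rw [map_mul, genHom_constAdm]
      have h1 : f * genHom A Fb Ft y₂ = algebraMap L Fb c * genHom A Fb Ft y₁ := hfy
      have hc' : algebraMap L Fb c ≠ 0 := by
        rw [Ne, map_eq_zero]; exact hc
      have h2 : genHom A Fb Ft y₁ = (algebraMap L Fb c)⁻¹ * (f * genHom A Fb Ft y₂) := by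
        rw [h1, ← mul_assoc, inv_mul_cancel₀ hc', one_mul]
      rw [h2, map_inv₀]
      field_simp
    refine ⟨redHom A Fb Ft (constAdm A Fb Ft ⟨c⁻¹, hcA⟩ * y₂) / redHom A Fb Ft y₁,
      constAdm A Fb Ft ⟨c⁻¹, hcA⟩ * y₂, y₁, hy₁, hgen, ?_⟩
    exact div_mul_cancel₀ _ hy₁

end Gauss

end Fermat.Agent.S18.T4649
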